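import Mathlib
import Fermat.Prelude.Sol.S_ModularForm_heckeT_slash_eq_self_of_mem_Gamma0
import Fermat.Prelude.Def_ModularCurve_PeriodMap

/-!
# S29, block (R3-B), leaf B1: the Hecke operator `T_ℓ` on `Hom(Γ₀(N), A)`

For a prime `ℓ ∤ N` and `γ ∈ Γ₀(N)` the coset representatives `δ_x = heckeRep ℓ x`
(`x ∈ ℙ¹(𝔽_ℓ)`) satisfy `δ_x γ = γ'_x δ_{σ x}` with a unique `γ'_x ∈ Γ₀(N)`
(`σ = redMatrix ℓ γ`).  We put `(T_ℓ c)(γ) = ∑_x c(γ'_x)`.
-/

set_option autoImplicit false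

namespace Fermat.Agent.S29.Betti

open CongruenceSubgroup Matrix.SpecialLinearGroup
open ModularCurve.Period
open P2MW.S_ModularForm_heckeT_slash_eq_self_of_mem_Gamma0.ModularForm.HeckeSlashInvariance
open scoped MatrixGroups

noncomputable section

variable {N : ℕ} {ℓ : ℕ} [Fact ℓ.Prime]

theorem dvd_of_mem_Gamma0 (γ : Gamma0 N) : (N : ℤ) ∣ (γ : SL(2, ℤ)) 1 0 :=
  (ZMod.intCast_zmod_eq_zero_iff_dvd _ _).mp (Gamma0_mem.mp γ.2)

theorem mem_Gamma0_of_dvd {g : SL(2, ℤ)} (h : (N : ℤ) ∣ g 1 0) : g ∈ Gamma0 N :=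
  Gamma0_mem.mpr ((ZMod.intCast_zmod_eq_zero_iff_dvd _ _).mpr h)

/-- `redMatrix` is an anti-homomorphism. -/
theorem redMatrix_mul (g₁ g₂ : SL(2, ℤ)) :
    redMatrix ℓ (g₁ * g₂) = redMatrix ℓ g₂ * redMatrix ℓ g₁ := by
  apply Matrix.GeneralLinearGroup.ext
  intro i j
  fin_cases i <;> fin_cases j <;>
    simp [redMatrix, Matrix.mul_apply, Fin.sum_univ_two, Matrix.GeneralLinearGroup.mkOfDetNeZero] <;>
    ring

theorem redMatrix_one : redMatrix ℓ (1 : SL(2, ℤ)) = 1 := by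
  apply Matrix.GeneralLinearGroup.ext
  intro i j
  fin_cases i <;> fin_cases j <;>
    simp [redMatrix, Matrix.GeneralLinearGroup.mkOfDetNeZero]

theorem redMatrix_pow (g : SL(2, ℤ)) (m : ℕ) : redMatrix ℓ (g ^ m) = redMatrix ℓ g ^ m := by
  induction m with
  | zero => rw [pow_zero, pow_zero, redMatrix_one]
  | succ m ih => rw [pow_succ', redMatrix_mul, ih, ← pow_succ]

/-! ### The step cocycle -/

variable (hℓN : ¬ ℓ ∣ N)

/-- the unique `γ'_x ∈ SL(2, ℤ)` with `δ_x γ = γ'_x δ_{σ x}`. -/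
def stepSL (γ : Gamma0 N) (x : OnePoint (ZMod ℓ)) : SL(2, ℤ) :=
  (heckeRep_mul hℓN (γ : SL(2, ℤ)) (dvd_of_mem_Gamma0 γ) x).choose

theorem stepSL_dvd (γ : Gamma0 N) (x : OnePoint (ZMod ℓ)) :
    (N : ℤ) ∣ stepSL hℓN γ x 1 0 :=
  (heckeRep_mul hℓN (γ : SL(2, ℤ)) (dvd_of_mem_Gamma0 γ) x).choose_spec.1

theorem stepSL_rel (γ : Gamma0 N) (x : OnePoint (ZMod ℓ)) :
    heckeRep ℓ x * mapGL ℝ (γ : SL(2, ℤ)) =
      mapGL ℝ (stepSL hℓN γ x) * heckeRep ℓ (redMatrix ℓ (γ : SL(2, ℤ)) • x) :=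
  (heckeRep_mul hℓN (γ : SL(2, ℤ)) (dvd_of_mem_Gamma0 γ) x).choose_spec.2

/-- the step `γ'_x` as an element of `Γ₀(N)`. -/
def stepG (γ : Gamma0 N) (x : OnePoint (ZMod ℓ)) : Gamma0 N :=
  ⟨stepSL hℓN γ x, mem_Gamma0_of_dvd (stepSL_dvd hℓN γ x)⟩

@[simp] theorem stepG_coe (γ : Gamma0 N) (x : OnePoint (ZMod ℓ)) :
    ((stepG hℓN γ x : Gamma0 N) : SL(2, ℤ)) = stepSL hℓN γ x := rfl

theorem stepSL_unique {γ : Gamma0 N} {x : OnePoint (ZMod ℓ)} {g : SL(2, ℤ)}
    (h : heckeRep ℓ x * mapGL ℝ (γ : SL(2, ℤ)) =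
      mapGL ℝ g * heckeRep ℓ (redMatrix ℓ (γ : SL(2, ℤ)) • x)) :
    g = stepSL hℓN γ x := by
  have h2 := stepSL_rel hℓN γ x
  rw [h] at h2
  exact mapGL_injective (mul_right_cancel h2)

/-- the cocycle relation. -/
theorem stepG_mul (γ₁ γ₂ : Gamma0 N) (x : OnePoint (ZMod ℓ)) :
    stepG hℓN (γ₁ * γ₂) x =
      stepG hℓN γ₁ x * stepG hℓN γ₂ (redMatrix ℓ (γ₁ : SL(2, ℤ)) • x) := by
  apply Subtype.ext
  rw [stepG_coe]
  symm
  apply stepSL_unique
  rw [Subgroup.coe_mul, Subgroup.coe_mul, stepG_coe, stepG_coe, map_mul, map_mul, ← mul_assoc,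
    stepSL_rel hℓN γ₁ x, mul_assoc, stepSL_rel hℓN γ₂, ← mul_assoc, redMatrix_mul, mul_smul]

theorem stepG_one (x : OnePoint (ZMod ℓ)) : stepG hℓN (1 : Gamma0 N) x = 1 := by
  have h := stepG_mul hℓN (1 : Gamma0 N) 1 x
  rw [mul_one, OneMemClass.coe_one, redMatrix_one, one_smul] at h
  exact (mul_eq_left.mp h.symm)

/-! ### The operator -/

section Operator

variable (A : Type*) [AddCommGroup A]

/-- `(T_ℓ c)(γ) = ∑_x c(γ'_x)`. -/
def heckeHomFun (c : Additive (Gamma0 N) →+ A) : Additive (Gamma0 N) →+ A where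
  toFun γ := ∑ x : OnePoint (ZMod ℓ), c (Additive.ofMul (stepG hℓN (Additive.toMul γ) x))
  map_zero' := by
    simp only [toMul_zero, stepG_one, ofMul_one, map_zero, Finset.sum_const_zero]
  map_add' γ δ := by
    simp only [toMul_add, stepG_mul, ofMul_mul, map_add, Finset.sum_add_distrib]
    congr 1
    exact Equiv.sum_comp (MulAction.toPerm (redMatrix ℓ ((Additive.toMul γ : Gamma0 N) : SL(2, ℤ))))
      (fun x => c (Additive.ofMul (stepG hℓN (Additive.toMul δ) x)))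

@[simp] theorem heckeHomFun_apply (c : Additive (Gamma0 N) →+ A) (γ : Gamma0 N) :
    heckeHomFun hℓN A c (Additive.ofMul γ) =
      ∑ x : OnePoint (ZMod ℓ), c (Additive.ofMul (stepG hℓN γ x)) := rfl

/-- `T_ℓ` on `Hom(Γ₀(N), A)` as an additive map. -/
def heckeHom : (Additive (Gamma0 N) →+ A) →+ (Additive (Gamma0 N) →+ A) where
  toFun := heckeHomFun hℓN A
  map_zero' := by
    ext γ
    simp [heckeHomFun]
  map_add' c d := by
    ext γ
    simp [heckeHomFun, Finset.sum_add_distrib]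

theorem heckeHom_apply (c : Additive (Gamma0 N) →+ A) (γ : Gamma0 N) :
    heckeHom hℓN A c (Additive.ofMul γ) =
      ∑ x : OnePoint (ZMod ℓ), c (Additive.ofMul (stepG hℓN γ x)) := rfl

/-- `T_ℓ` is linear for every module structure on the coefficients. -/
def heckeHomL (R : Type*) [Semiring R] [Module R A] :
    (Additive (Gamma0 N) →+ A) →ₗ[R] (Additive (Gamma0 N) →+ A) where
  toFun := heckeHom hℓN A
  map_add' := map_add _
  map_smul' r c := by
    ext γ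
    simp only [RingHom.id_apply]
    change heckeHom hℓN A (r • c) (Additive.ofMul (Additive.toMul γ)) =
      r • heckeHom hℓN A c (Additive.ofMul (Additive.toMul γ))
    rw [heckeHom_apply, heckeHom_apply, Finset.smul_sum]
    rfl

@[simp] theorem heckeHomL_apply (R : Type*) [Semiring R] [Module R A]
    (c : Additive (Gamma0 N) →+ A) : heckeHomL hℓN A R c = heckeHom hℓN A c := rfl

/-- naturality in the coefficients. -/
theorem heckeHom_comp {A' : Type*} [AddCommGroup A'] (φ : A →+ A')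
    (c : Additive (Gamma0 N) →+ A) :
    heckeHom hℓN A' (φ.comp c) = φ.comp (heckeHom hℓN A c) := by
  ext γ
  change heckeHom hℓN A' (φ.comp c) (Additive.ofMul (Additive.toMul γ)) =
    φ (heckeHom hℓN A c (Additive.ofMul (Additive.toMul γ)))
  rw [heckeHom_apply, heckeHom_apply, map_sum]
  rfl

end Operator

/-! ### Traces of powers -/

theorem mat_sq (M : Matrix (Fin 2) (Fin 2) ℤ) :
    M * M = M.trace • M - M.det • (1 : Matrix (Fin 2) (Fin 2) ℤ) := by
  ext i j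
  fin_cases i <;> fin_cases j <;>
    simp only [Matrix.mul_apply, Fin.sum_univ_two, Matrix.sub_apply, Matrix.smul_apply,
      Matrix.one_apply, Matrix.trace_fin_two, Matrix.det_fin_two, smul_eq_mul, Fin.zero_eta,
      Fin.mk_one, Fin.isValue, if_true, one_ne_zero, zero_ne_one, if_false, mul_one,
      mul_zero] <;> ring

theorem trace_pow_rec (M : Matrix (Fin 2) (Fin 2) ℤ) (hdet : M.det = 1) (m : ℕ) :
    (M ^ (m + 2)).trace = M.trace * (M ^ (m + 1)).trace - (M ^ m).trace := by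
  have h : M ^ (m + 2) = M.trace • M ^ (m + 1) - M ^ m := by
    rw [pow_add, pow_two, mat_sq, hdet, one_smul, mul_sub, mul_one, Matrix.mul_smul, ← pow_succ]
  rw [h, Matrix.trace_sub, Matrix.trace_smul, smul_eq_mul]

/-- `tr² = 4` is stable under powers (for determinant one). -/
theorem trace_pow_sq (M : Matrix (Fin 2) (Fin 2) ℤ) (hdet : M.det = 1) (ht : M.trace ^ 2 = 4)
    (m : ℕ) : (M ^ m).trace ^ 2 = 4 := by
  have key : ∀ m : ℕ, 2 * (M ^ (m + 1)).trace = M.trace * (M ^ m).trace ∧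
      (M ^ m).trace ^ 2 = 4 := by
    intro m
    induction m with
    | zero =>
      refine ⟨?_, ?_⟩
      · rw [pow_zero, zero_add, pow_one, Matrix.trace_one]; simp; ring
      · rw [pow_zero, Matrix.trace_one]; simp
    | succ m ih =>
      obtain ⟨h1, h2⟩ := ih
      have hrec := trace_pow_rec M hdet m
      set s0 := (M ^ m).trace
      set s1 := (M ^ (m + 1)).trace
      set s2 := (M ^ (m + 2)).trace
      set t := M.trace
      have hs2 : s2 = s0 := by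
        have : 2 * s2 = 2 * s0 := by
          calc 2 * s2 = t * (2 * s1) - 2 * s0 := by rw [hrec]; ring
          _ = t ^ 2 * s0 - 2 * s0 := by rw [h1]; ring
          _ = 2 * s0 := by rw [ht]; ring
        linarith
      refine ⟨?_, ?_⟩
      · show 2 * s2 = t * s1
        have : 2 * (t * s1) = 2 * (2 * s2) := by
          calc 2 * (t * s1) = t * (2 * s1) := by ring
          _ = t ^ 2 * s0 := by rw [h1]; ring
          _ = 2 * (2 * s2) := by rw [ht, hs2]; ring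
        linarith
      · show s1 ^ 2 = 4
        have : 4 * s1 ^ 2 = 16 := by
          calc 4 * s1 ^ 2 = (2 * s1) ^ 2 := by ring
          _ = t ^ 2 * s0 ^ 2 := by rw [h1]; ring
          _ = 16 := by rw [ht, h2]; norm_num
        linarith
  exact (key m).2

theorem trace_sq_pow_SL {g : SL(2, ℤ)} (h : (g : Matrix (Fin 2) (Fin 2) ℤ).trace ^ 2 = 4)
    (m : ℕ) : ((g ^ m : SL(2, ℤ)) : Matrix (Fin 2) (Fin 2) ℤ).trace ^ 2 = 4 := by
  rw [Matrix.SpecialLinearGroup.coe_pow]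
  exact trace_pow_sq _ g.det_coe h m

/-- real trace of `mapGL ℝ g`. -/
theorem trace_mapGL (g : SL(2, ℤ)) :
    ((mapGL ℝ g : GL (Fin 2) ℝ) : Matrix (Fin 2) (Fin 2) ℝ).trace =
      (((g : Matrix (Fin 2) (Fin 2) ℤ).trace : ℤ) : ℝ) := by
  rw [Matrix.trace_fin_two, Matrix.trace_fin_two]
  have h := mapGL_apply (g := g)
  rw [h 0 0, h 1 1]
  push_cast
  rfl

/-- if `γ` acts trivially on `ℙ¹(𝔽_ℓ)`, the steps are conjugates of `γ`. -/
theorem trace_stepSL_of_red_eq_one (γ : Gamma0 N) (hγ : redMatrix ℓ (γ : SL(2, ℤ)) = 1)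
    (x : OnePoint (ZMod ℓ)) :
    ((stepSL hℓN γ x : SL(2, ℤ)) : Matrix (Fin 2) (Fin 2) ℤ).trace =
      ((γ : SL(2, ℤ)) : Matrix (Fin 2) (Fin 2) ℤ).trace := by
  have h := stepSL_rel hℓN γ x
  rw [hγ, one_smul] at h
  have h2 : mapGL ℝ (stepSL hℓN γ x) =
      heckeRep ℓ x * mapGL ℝ (γ : SL(2, ℤ)) * (heckeRep ℓ x)⁻¹ := by
    rw [h, mul_inv_cancel_right]
  have h3 := congrArg (fun M : GL (Fin 2) ℝ => (M : Matrix (Fin 2) (Fin 2) ℝ).trace) h2
  simp only [Units.val_mul] at h3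
  rw [Matrix.trace_units_conj, trace_mapGL, trace_mapGL] at h3
  exact_mod_cast h3

/-- `T_ℓ` preserves parabolic homomorphisms with torsion-free values. -/
theorem heckeHom_mem_parabolicHoms (A : Type*) [AddCommGroup A] [IsAddTorsionFree A]
    (R : Type*) [Semiring R] [Module R A]
    {c : Additive (Gamma0 N) →+ A} (hc : c ∈ parabolicHoms R (Gamma0 N) A) :
    heckeHom hℓN A c ∈ parabolicHoms R (Gamma0 N) A := by
  rw [mem_parabolicHoms_iff] at hc ⊢
  intro γ hγ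
  set m := orderOf (redMatrix ℓ (γ : SL(2, ℤ))) with hm
  have hmpos : 0 < m := orderOf_pos _
  have hred : redMatrix ℓ ((γ ^ m : Gamma0 N) : SL(2, ℤ)) = 1 := by
    rw [SubgroupClass.coe_pow, redMatrix_pow, hm, pow_orderOf_eq_one]
  have hzero : heckeHom hℓN A c (Additive.ofMul (γ ^ m)) = 0 := by
    rw [heckeHom_apply]
    refine Finset.sum_eq_zero fun x _ => ?_
    refine hc _ ?_
    rw [stepG_coe, trace_stepSL_of_red_eq_one hℓN _ hred, SubgroupClass.coe_pow]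
    exact trace_sq_pow_SL hγ m
  rw [ofMul_pow, map_nsmul] at hzero
  exact (smul_eq_zero_iff_right hmpos.ne').mp hzero

end

end Fermat.Agent.S29.Betti
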