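import Fermat.Agent.S29.Betti.PeriodEigen

/-!
# S29, block (R3-B), leaf B4: the source module `X N A` and the eigen-support

* `XMod N R A` : the `R`-submodule of `Hom(Γ₀(N), A)` of characters killing every element with
  `tr² = 4` (parabolic elements and `±1`) and every element of finite order (elliptic elements);
* `heckeHom_mem_X` : `T_ℓ` preserves it, for EVERY coefficient group `A` (cycle argument);
* `heckeX` : the restricted operator;
* `exists_tensor_eigen_X` : for a normalised eigenform `g` and `φ0 : ℤ̄ → k0` (char `p`) there is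
  `w ≠ 0` in `k0 ⊗[ZMod p] XMod N (ZMod p) (ZMod p)` with `(T_ℓ).baseChange k0 w = φ0(a_ℓ) • w`
  for every prime `ℓ ∤ N`.
-/

set_option autoImplicit false

namespace Fermat.Agent.S29.Betti

open UpperHalfPlane CongruenceSubgroup Matrix.SpecialLinearGroup Function
open ModularCurve ModularCurve.Period
open ModularFormClass
open P2MW.S_ModularForm_heckeT_slash_eq_self_of_mem_Gamma0.ModularForm.HeckeSlashInvariance
open scoped MatrixGroups TensorProduct

noncomputable section

/-! ### Orbit sums -/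

theorem minimalPeriod_pos_perm {α : Type*} [Finite α] (σ : Equiv.Perm α) (x : α) :
    0 < minimalPeriod σ x := by
  apply minimalPeriod_pos_of_mem_periodicPts
  have h : IsPeriodicPt σ (orderOf σ) x := by
    unfold IsPeriodicPt IsFixedPt
    rw [Equiv.Perm.iterate_eq_pow, pow_orderOf_eq_one]
    rfl
  exact mk_mem_periodicPts (orderOf_pos σ) h

theorem pow_minimalPeriod_apply {α : Type*} (σ : Equiv.Perm α) (x : α) :
    (σ ^ minimalPeriod σ x) x = x := by
  have := isPeriodicPt_minimalPeriod σ x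
  unfold IsPeriodicPt IsFixedPt at this
  rwa [Equiv.Perm.iterate_eq_pow] at this

/-- if all orbit sums vanish, the total sum vanishes. -/
theorem sum_eq_zero_of_cycle_sums {α : Type*} [Fintype α] [DecidableEq α] (σ : Equiv.Perm α)
    {A : Type*} [AddCommMonoid A] (f : α → A)
    (h : ∀ x, ∑ j ∈ Finset.range (minimalPeriod σ x), f ((σ ^ j) x) = 0) :
    ∑ x, f x = 0 := by
  have key : ∀ n : ℕ, ∀ U : Finset α, U.card = n → (∀ x ∈ U, σ x ∈ U) → ∑ x ∈ U, f x = 0 := by
    intro n
    induction n using Nat.strong_induction_on with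
    | _ n ih =>
      intro U hU hinv
      rcases U.eq_empty_or_nonempty with rfl | ⟨x, hx⟩
      · simp
      set m := minimalPeriod σ x with hm
      have hmpos : 0 < m := minimalPeriod_pos_perm σ x
      have hpow : ∀ j : ℕ, (σ ^ j) x ∈ U := by
        intro j
        induction j with
        | zero => simpa using hx
        | succ j ihj => rw [pow_succ', Equiv.Perm.mul_apply]; exact hinv _ ihj
      set O : Finset α := (Finset.range m).image (fun j => (σ ^ j) x) with hO
      have hOU : O ⊆ U := by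
        intro y hy
        rw [hO, Finset.mem_image] at hy
        obtain ⟨j, -, rfl⟩ := hy
        exact hpow j
      have hxO : x ∈ O := by
        rw [hO, Finset.mem_image]
        exact ⟨0, Finset.mem_range.mpr hmpos, by simp⟩
      have hOinv : ∀ y, σ y ∈ O → y ∈ O := by
        intro y hy
        rw [hO, Finset.mem_image] at hy ⊢
        obtain ⟨j, hj, hjy⟩ := hy
        rcases Nat.eq_zero_or_pos j with rfl | hjpos
        · refine ⟨m - 1, Finset.mem_range.mpr (by omega), ?_⟩
          apply σ.injective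
          rw [← Equiv.Perm.mul_apply, ← pow_succ', show m - 1 + 1 = m by omega, hm,
            pow_minimalPeriod_apply, ← hjy]
          simp
        · refine ⟨j - 1, Finset.mem_range.mpr (by have := Finset.mem_range.mp hj; omega), ?_⟩
          apply σ.injective
          rw [← Equiv.Perm.mul_apply, ← pow_succ', show j - 1 + 1 = j by omega, hjy]
      have hsdiff_inv : ∀ y ∈ U \ O, σ y ∈ U \ O := by
        intro y hy
        rw [Finset.mem_sdiff] at hy ⊢
        exact ⟨hinv y hy.1, fun hc => hy.2 (hOinv y hc)⟩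
      have hcard : (U \ O).card < n := by
        rw [← hU]
        apply Finset.card_lt_card
        refine ⟨Finset.sdiff_subset, fun hsub => ?_⟩
        have := hsub hx
        rw [Finset.mem_sdiff] at this
        exact this.2 hxO
      have h1 := ih _ hcard (U \ O) rfl hsdiff_inv
      have h2 : ∑ y ∈ O, f y = 0 := by
        rw [hO, Finset.sum_image]
        · exact h x
        · intro i hi j hj hij
          have hinj := iterate_injOn_Iio_minimalPeriod (f := σ) (x := x)
          apply hinj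
          · simpa using Finset.mem_range.mp hi
          · simpa using Finset.mem_range.mp hj
          · simpa [Equiv.Perm.iterate_eq_pow] using hij
      rw [← Finset.sum_sdiff hOU, h1, h2, add_zero]
  simpa using key _ Finset.univ rfl (fun x _ => Finset.mem_univ _)

/-! ### Steps of powers -/

variable {N : ℕ} {ℓ : ℕ} [Fact ℓ.Prime] (hℓN : ¬ ℓ ∣ N)

/-- the permutation of `ℙ¹(𝔽_ℓ)` attached to `γ`. -/
def permOf (γ : Gamma0 N) : Equiv.Perm (OnePoint (ZMod ℓ)) :=
  MulAction.toPerm (redMatrix ℓ (γ : SL(2, ℤ)))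

theorem permOf_apply (γ : Gamma0 N) (x : OnePoint (ZMod ℓ)) :
    permOf (ℓ := ℓ) γ x = redMatrix ℓ (γ : SL(2, ℤ)) • x := rfl

theorem permOf_pow_apply (γ : Gamma0 N) (m : ℕ) (x : OnePoint (ZMod ℓ)) :
    (permOf (ℓ := ℓ) γ ^ m) x = redMatrix ℓ ((γ ^ m : Gamma0 N) : SL(2, ℤ)) • x := by
  rw [SubgroupClass.coe_pow, redMatrix_pow]
  induction m generalizing x with
  | zero => simp
  | succ m ih =>
    rw [pow_succ, Equiv.Perm.mul_apply, ih, permOf_apply, pow_succ, mul_smul]

/-- additive characters turn the step of a power into an orbit sum. -/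
theorem apply_stepG_pow {A : Type*} [AddCommGroup A] (c : Additive (Gamma0 N) →+ A)
    (γ : Gamma0 N) (m : ℕ) (x : OnePoint (ZMod ℓ)) :
    c (Additive.ofMul (stepG hℓN (γ ^ m) x)) =
      ∑ j ∈ Finset.range m, c (Additive.ofMul (stepG hℓN γ ((permOf (ℓ := ℓ) γ ^ j) x))) := by
  induction m with
  | zero => simp [stepG_one]
  | succ m ih =>
    rw [pow_succ, stepG_mul, ofMul_mul, map_add, ih, Finset.sum_range_succ, permOf_pow_apply]

/-- if `γ` fixes `x`, the step at `x` is conjugate to `γ`. -/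
theorem mapGL_stepSL_of_fixed (γ : Gamma0 N) (x : OnePoint (ZMod ℓ))
    (hx : redMatrix ℓ (γ : SL(2, ℤ)) • x = x) :
    mapGL ℝ (stepSL hℓN γ x) =
      heckeRep ℓ x * mapGL ℝ (γ : SL(2, ℤ)) * (heckeRep ℓ x)⁻¹ := by
  have h := stepSL_rel hℓN γ x
  rw [hx] at h
  rw [h, mul_inv_cancel_right]

theorem trace_stepSL_of_fixed (γ : Gamma0 N) (x : OnePoint (ZMod ℓ))
    (hx : redMatrix ℓ (γ : SL(2, ℤ)) • x = x) :
    ((stepSL hℓN γ x : SL(2, ℤ)) : Matrix (Fin 2) (Fin 2) ℤ).trace =
      ((γ : SL(2, ℤ)) : Matrix (Fin 2) (Fin 2) ℤ).trace := by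
  have h2 := mapGL_stepSL_of_fixed hℓN γ x hx
  have h3 := congrArg (fun M : GL (Fin 2) ℝ => (M : Matrix (Fin 2) (Fin 2) ℝ).trace) h2
  simp only [Units.val_mul] at h3
  rw [Matrix.trace_units_conj, trace_mapGL, trace_mapGL] at h3
  exact_mod_cast h3

theorem isOfFinOrder_stepG_of_fixed (γ : Gamma0 N) (x : OnePoint (ZMod ℓ))
    (hx : redMatrix ℓ (γ : SL(2, ℤ)) • x = x) (hγ : IsOfFinOrder γ) :
    IsOfFinOrder (stepG hℓN γ x) := by
  obtain ⟨n, hn, h⟩ := hγ.exists_pow_eq_one
  refine isOfFinOrder_iff_pow_eq_one.mpr ⟨n, hn, ?_⟩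
  apply Subtype.ext
  rw [SubgroupClass.coe_pow, stepG_coe, OneMemClass.coe_one]
  apply mapGL_injective (R := ℤ) (S := ℝ)
  rw [map_pow, mapGL_stepSL_of_fixed hℓN γ x hx, conj_pow, ← map_pow, ← SubgroupClass.coe_pow, h,
    OneMemClass.coe_one, map_one, mul_one, mul_inv_cancel]

/-! ### The source module -/

/-- the admissibility condition (`(d3)` of the R3 blueprint). -/
def IsAdmChar {A : Type*} [AddCommGroup A] (c : Additive (Gamma0 N) →+ A) : Prop :=
  ∀ γ : Gamma0 N, (((γ : SL(2, ℤ)) : Matrix (Fin 2) (Fin 2) ℤ).trace ^ 2 = 4 ∨ IsOfFinOrder γ) →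
    c (Additive.ofMul γ) = 0

/-- **`T_ℓ` preserves admissible characters, for every coefficient group.** -/
theorem isAdmChar_heckeHom {A : Type*} [AddCommGroup A] {c : Additive (Gamma0 N) →+ A}
    (hc : IsAdmChar c) : IsAdmChar (heckeHom hℓN A c) := by
  classical
  intro γ hγ
  rw [heckeHom_apply]
  apply sum_eq_zero_of_cycle_sums (permOf (ℓ := ℓ) γ)
  intro x
  set m := minimalPeriod (permOf (ℓ := ℓ) γ) x with hm
  rw [← apply_stepG_pow hℓN c γ m x]
  have hfix : redMatrix ℓ ((γ ^ m : Gamma0 N) : SL(2, ℤ)) • x = x := by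
    rw [← permOf_pow_apply, hm, pow_minimalPeriod_apply]
  apply hc
  rcases hγ with hγ | hγ
  · left
    rw [stepG_coe, trace_stepSL_of_fixed hℓN _ x hfix, SubgroupClass.coe_pow]
    exact trace_sq_pow_SL hγ m
  · right
    exact isOfFinOrder_stepG_of_fixed hℓN _ x hfix hγ.pow

variable (N)

/-- the source module `X N A` (as an `R`-submodule for any module structure on `A`). -/
def XMod (R : Type*) [Semiring R] (A : Type*) [AddCommGroup A] [Module R A] :
    Submodule R (Additive (Gamma0 N) →+ A) where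
  carrier := {c | IsAdmChar c}
  zero_mem' := fun _ _ => rfl
  add_mem' := by
    intro c d hc hd γ hγ
    rw [AddMonoidHom.add_apply, hc γ hγ, hd γ hγ, add_zero]
  smul_mem' := by
    intro r c hc γ hγ
    rw [AddMonoidHom.smul_apply, hc γ hγ, smul_zero]

variable {N}

theorem mem_XMod_iff {R : Type*} [Semiring R] {A : Type*} [AddCommGroup A] [Module R A]
    {c : Additive (Gamma0 N) →+ A} : c ∈ XMod N R A ↔ IsAdmChar c := Iff.rfl

/-- the restricted Hecke operator. -/
def heckeX (R : Type*) [Semiring R] (A : Type*) [AddCommGroup A] [Module R A] :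
    XMod N R A →ₗ[R] XMod N R A :=
  (heckeHomL hℓN A R).restrict fun _ hc => isAdmChar_heckeHom hℓN hc

@[simp] theorem heckeX_coe (R : Type*) [Semiring R] (A : Type*) [AddCommGroup A] [Module R A]
    (u : XMod N R A) :
    ((heckeX hℓN R A u : XMod N R A) : Additive (Gamma0 N) →+ A) = heckeHom hℓN A u := rfl

/-! ### The eigen-support -/

section Final

variable (N) [NeZero N]

/-- the index type of the Hecke operators: primes not dividing `N`. -/
abbrev GoodPrime : Type := {q : Nat.Primes // ¬ (q : ℕ) ∣ N}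

instance instFactGoodPrime (q : GoodPrime N) : Fact (q.1 : ℕ).Prime := ⟨q.1.2⟩

/-- `T_q` on `X N (ZMod p)`. -/
def heckeXp (p : ℕ) (q : GoodPrime N) :
    XMod N (ZMod p) (ZMod p) →ₗ[ZMod p] XMod N (ZMod p) (ZMod p) :=
  heckeX q.2 (ZMod p) (ZMod p)

/-- the steps, indexed by `Fin`. -/
def stepFin (q : GoodPrime N) (i : Fin (Fintype.card (OnePoint (ZMod (q.1 : ℕ)))))
    (γ : Gamma0 N) : Gamma0 N :=
  stepG q.2 γ ((Fintype.equivFin (OnePoint (ZMod (q.1 : ℕ)))).symm i)

theorem sum_stepFin {A : Type*} [AddCommGroup A] (c : Additive (Gamma0 N) →+ A)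
    (q : GoodPrime N) (γ : Gamma0 N) :
    ∑ i, c (Additive.ofMul (stepFin N q i γ)) = heckeHom q.2 A c (Additive.ofMul γ) := by
  rw [heckeHom_apply]
  exact Equiv.sum_comp (Fintype.equivFin (OnePoint (ZMod (q.1 : ℕ)))).symm
    (fun x => c (Additive.ofMul (stepG q.2 γ x)))

/-- **The eigen-support** (link (1) of the R3 chain): a nonzero common eigenvector in
`k0 ⊗ X N (ZMod p)` with the eigenvalues `φ0 (a_q(g))`. -/
theorem exists_tensor_eigen_X {g : CuspForm (Gamma0 N) 2} (hg : g.IsNormalizedEigenform)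
    (p : ℕ) [Fact p.Prime] {k0 : Type*} [Field k0] [Algebra (ZMod p) k0]
    (φ0 : integralClosure ℤ ℂ →+* k0) :
    ∃ w : k0 ⊗[ZMod p] XMod N (ZMod p) (ZMod p), w ≠ 0 ∧
      ∀ q : GoodPrime N, ∃ a : integralClosure ℤ ℂ, (a : ℂ) = qCoeff (⇑g) (q.1 : ℕ) ∧
        (heckeXp N p q).baseChange k0 w = φ0 a • w := by
  classical
  have : CharP k0 p := charP_of_injective_algebraMap (algebraMap (ZMod p) k0).injective p
  obtain ⟨c, hc0, hadm, hrel⟩ := exists_eigen_char N hg p φ0
  choose a ha hrela using fun q : GoodPrime N => hrel (q.1 : ℕ) q.2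
  obtain ⟨w, hw0, hw⟩ := Fermat.Agent.S29.Eigen.EigenReduce.exists_tensor_eigen p
    (XMod N (ZMod p) (ZMod p)) (heckeXp N p)
    (fun q => Fintype.card (OnePoint (ZMod (q.1 : ℕ)))) (stepFin N)
    (fun q u γ => by
      rw [sum_stepFin]
      rfl)
    c hc0 (fun q => φ0 (a q))
    (fun q γ => by
      rw [sum_stepFin, heckeHom_apply_of_heckeRel q.2 c (heckeRel_stepG q.2 γ)]
      exact hrela q γ _ (heckeRel_stepG q.2 γ))
    (fun u hu γ hγ => hu _ (hadm γ hγ))
  exact ⟨w, hw0, fun q => ⟨a q, ha q, hw q⟩⟩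

end Final

end

end Fermat.Agent.S29.Betti
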