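import Fermat.Agent.S16.Lower.HeckeLattice
import Fermat.Agent.S22
import Fermat.Agent.S29.Betti.HeckeHom
import Fermat.Prelude.Def_FLTPrelim_Modularity
import Fermat.Prelude.Thm_ModularFormClass_qCoeff_heckeT
import Fermat.Prelude.Thm_CongruenceSubgroup_one_mem_strictPeriods_Gamma0

/-!
# S29, block (R3-B), leaf B2: the period map is Hecke equivariant; eigenforms are eigenvectors

* `periodMap_heckeTLin`: `periodMap N (T_ℓ f) = T_ℓ (periodMap N f)` for `ℓ ∤ N`;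
* `heckeTLin_eq_smul_of_isNormalizedEigenform`: `T_ℓ g = a_ℓ(g) • g`;
* `isIntegral_qCoeff_of_isNormalizedEigenform`: `a_ℓ(g)` is an algebraic integer;
* `periodMap_ne_zero`: the period map is injective.
-/

set_option autoImplicit false

namespace Fermat.Agent.S29.Betti

open UpperHalfPlane CongruenceSubgroup Matrix.SpecialLinearGroup Polynomial
open ModularCurve ModularCurve.Period Fermat.Agent.S22 Fermat.Agent.S21 Fermat.Agent.S23
open ModularFormClass
open P2MW.S_ModularForm_heckeT_slash_eq_self_of_mem_Gamma0.ModularForm.HeckeSlashInvariance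
open scoped MatrixGroups ModularForm Manifold

noncomputable section

variable {N : ℕ} [NeZero N]

/-- **The period map is Hecke equivariant.** -/
theorem periodMap_heckeTLin {ℓ : ℕ} [Fact ℓ.Prime] (hℓ : ℓ.Prime) (hℓN : ¬ ℓ ∣ N)
    (f : CuspForm (Gamma0 N) 2) :
    periodMap N (CuspForm.heckeTLin 2 hℓ hℓN f) = heckeHom hℓN ℂ (periodMap N f) := by
  refine AddMonoidHom.ext fun γ => ?_
  obtain ⟨γ, rfl⟩ := Additive.ofMul.surjective γ
  have h := Fermat.Agent.S16.Lower.perFun_comp_eq_sum N (CuspForm.heckeTLin 2 hℓ hℓN) γ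
    (fun x => stepG hℓN γ x)
    (fun x => heckeRep ℓ (redMatrix ℓ (γ : SL(2, ℤ)) • x))
    (fun f => Fermat.Agent.S16.Lower.periodPoly_heckeT_explicit 0 hℓ hℓN (γ : SL(2, ℤ))
      (fun x => stepSL hℓN γ x) (fun x => (stepG hℓN γ x).2) (stepSL_rel hℓN γ) f)
  have h2 := LinearMap.congr_fun h f
  rw [LinearMap.comp_apply, perFun_apply, LinearMap.sum_apply] at h2
  rw [h2, heckeHom_apply]
  rfl

/-! ### q-coefficients -/

omit [NeZero N]

theorem qc_add (f g : CuspForm (Gamma0 N) 2) (n : ℕ) :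
    qCoeff (⇑(f + g)) n = qCoeff (⇑f) n + qCoeff (⇑g) n := by
  have h1 := CongruenceSubgroup.one_mem_strictPeriods_Gamma0 N
  unfold qCoeff
  rw [FunLike.coe_add, ModularForm.qExpansion_add one_pos h1 f g, map_add]

theorem qc_smul (c : ℂ) (f : CuspForm (Gamma0 N) 2) (n : ℕ) :
    qCoeff (⇑(c • f)) n = c * qCoeff (⇑f) n := by
  have h1 := CongruenceSubgroup.one_mem_strictPeriods_Gamma0 N
  unfold qCoeff
  rw [FunLike.coe_smul, ModularForm.qExpansion_smul one_pos h1 c f]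
  simp

theorem qc_zero_idx (f : CuspForm (Gamma0 N) 2) : qCoeff (⇑f) 0 = 0 := by
  have h1 := CongruenceSubgroup.one_mem_strictPeriods_Gamma0 N
  exact CuspFormClass.qExpansion_coeff_zero f one_pos h1

theorem qc_eq_zero (f : CuspForm (Gamma0 N) 2) (h : ∀ n, qCoeff (⇑f) n = 0) : f = 0 := by
  have h1 := CongruenceSubgroup.one_mem_strictPeriods_Gamma0 N
  have hq : qExpansion 1 (⇑f) = 0 := by
    ext n
    simpa [qCoeff] using h n
  have : Fact (IsCusp OnePoint.infty (Gamma0 N : Subgroup (GL (Fin 2) ℝ))) :=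
    ⟨Subgroup.isCusp_of_mem_strictPeriods one_pos h1⟩
  have := (qExpansion_eq_zero_iff one_pos
    (SlashInvariantFormClass.periodic_comp_ofComplex f h1) (ModularFormClass.holo f)
    (ModularFormClass.bdd_at_infty f)).mp hq
  exact DFunLike.coe_injective this

theorem qc_heckeTLin {p : ℕ} (hp : p.Prime) (hpN : ¬ p ∣ N) (f : CuspForm (Gamma0 N) 2)
    (n : ℕ) :
    qCoeff (⇑(CuspForm.heckeTLin 2 hp hpN f)) n =
      qCoeff (⇑f) (n * p) + if p ∣ n then (p : ℂ) * qCoeff (⇑f) (n / p) else 0 := by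
  have h1 := CongruenceSubgroup.one_mem_strictPeriods_Gamma0 N
  rw [CuspForm.coe_heckeTLin_apply, ModularFormClass.qCoeff_heckeT f h1 hp.ne_zero n,
    ModularForm.coeffHeckeT]
  norm_num

/-! ### Normalised eigenforms are eigenvectors -/

/-- the coefficient relation of a normalised eigenform at a prime `ℓ ∤ N`. -/
theorem qc_relation_of_isNormalizedEigenform {g : CuspForm (Gamma0 N) 2}
    (hg : g.IsNormalizedEigenform) {ℓ : ℕ} (hℓ : ℓ.Prime) (hℓN : ¬ ℓ ∣ N) (n : ℕ) :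
    qCoeff (⇑g) (n * ℓ) + (if ℓ ∣ n then (ℓ : ℂ) * qCoeff (⇑g) (n / ℓ) else 0) =
      qCoeff (⇑g) ℓ * qCoeff (⇑g) n := by
  rcases Nat.eq_zero_or_pos n with rfl | hn
  · rw [zero_mul, Nat.zero_div, if_pos (dvd_zero ℓ), qc_zero_idx]
    ring
  obtain ⟨r, m, hm, rfl⟩ := Nat.exists_eq_pow_mul_and_not_dvd hn.ne' ℓ hℓ.ne_one
  have hcop : ∀ j : ℕ, (ℓ ^ j).Coprime m :=
    fun j => Nat.Coprime.pow_left j ((Nat.Prime.coprime_iff_not_dvd hℓ).mpr hm)
  have h1 : ℓ ^ r * m * ℓ = ℓ ^ (r + 1) * m := by ring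
  rw [h1, hg.qCoeff_mul_of_coprime _ _ (hcop (r + 1)), hg.qCoeff_mul_of_coprime _ _ (hcop r)]
  rcases Nat.eq_zero_or_pos r with rfl | hr
  · rw [pow_zero, one_mul, if_neg hm, add_zero, zero_add, pow_one, hg.qCoeff_one]
    ring
  · obtain ⟨s, rfl⟩ : ∃ s, r = s + 1 := ⟨r - 1, by omega⟩
    have hdvd : ℓ ∣ ℓ ^ (s + 1) * m := Dvd.dvd.mul_right (dvd_pow_self ℓ (by omega)) m
    have hdiv : ℓ ^ (s + 1) * m / ℓ = ℓ ^ s * m := by
      rw [pow_succ, mul_comm (ℓ ^ s) ℓ, mul_assoc]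
      exact Nat.mul_div_cancel_left _ hℓ.pos
    rw [if_pos hdvd, hdiv, hg.qCoeff_mul_of_coprime _ _ (hcop s),
      hg.qCoeff_prime_pow_of_not_dvd ℓ s hℓ hℓN]
    ring

/-- **A normalised eigenform is an eigenvector of `T_ℓ` with eigenvalue `a_ℓ`.** -/
theorem heckeTLin_eq_smul_of_isNormalizedEigenform {g : CuspForm (Gamma0 N) 2}
    (hg : g.IsNormalizedEigenform) {ℓ : ℕ} (hℓ : ℓ.Prime) (hℓN : ¬ ℓ ∣ N) :
    CuspForm.heckeTLin 2 hℓ hℓN g = qCoeff (⇑g) ℓ • g := by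
  rw [← sub_eq_zero]
  apply qc_eq_zero
  intro n
  have h : CuspForm.heckeTLin 2 hℓ hℓN g - qCoeff (⇑g) ℓ • g =
      CuspForm.heckeTLin 2 hℓ hℓN g + (-(qCoeff (⇑g) ℓ)) • g := by
    rw [sub_eq_add_neg]
    congr 1
    exact (_root_.neg_smul _ _).symm
  rw [h, qc_add, qc_smul, qc_heckeTLin, qc_relation_of_isNormalizedEigenform hg hℓ hℓN]
  ring

theorem ne_zero_of_isNormalizedEigenform {g : CuspForm (Gamma0 N) 2}
    (hg : g.IsNormalizedEigenform) : g ≠ 0 := by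
  rintro rfl
  have h := hg.qCoeff_one
  have h0 : qCoeff (⇑(0 : CuspForm (Gamma0 N) 2)) 1 = 0 := by
    have := qc_smul (N := N) 0 0 1
    rw [zero_smul, zero_mul] at this
    exact this
  rw [h0] at h
  exact zero_ne_one h

variable [NeZero N]

/-- eigenvalues of `T_ℓ` are algebraic integers (from S22: the Hecke algebra is a finite
`ℤ`-module). -/
theorem isIntegral_of_heckeTLin_eq_smul {g : CuspForm (Gamma0 N) 2} (hg : g ≠ 0)
    {ℓ : ℕ} (hℓ : ℓ.Prime) (hℓN : ¬ ℓ ∣ N) {a : ℂ}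
    (h : CuspForm.heckeTLin 2 hℓ hℓN g = a • g) : IsIntegral ℤ a := by
  have hfin : Module.Finite ℤ (CuspForm.heckeAlgebra N 2 ∅) := Fermat.Agent.S22.result N 2 ∅
  have hint : IsIntegral ℤ (CuspForm.heckeAlgebra.T (k := 2) hℓ hℓN (Set.notMem_empty ℓ) :
      CuspForm.heckeAlgebra N 2 ∅) := Algebra.IsIntegral.isIntegral _
  have hint2 : IsIntegral ℤ (CuspForm.heckeTLin 2 hℓ hℓN :
      Module.End ℂ (CuspForm (Gamma0 N) 2)) :=
    hint.map (CuspForm.heckeAlgebra N 2 ∅).val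
  obtain ⟨P, hPm, hP⟩ := hint2
  refine ⟨P, hPm, ?_⟩
  have hev : Module.End.HasEigenvector (CuspForm.heckeTLin 2 hℓ hℓN) a g :=
    ⟨Module.End.mem_eigenspace_iff.mpr h, hg⟩
  have h1 := Module.End.aeval_apply_of_hasEigenvector (p := P.map (algebraMap ℤ ℂ)) hev
  rw [Polynomial.aeval_map_algebraMap, Polynomial.aeval_def, hP, LinearMap.zero_apply] at h1
  have h2 := (smul_eq_zero.mp h1.symm).resolve_right hg
  rw [Polynomial.eval_map] at h2
  exact h2

theorem isIntegral_qCoeff_of_isNormalizedEigenform {g : CuspForm (Gamma0 N) 2}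
    (hg : g.IsNormalizedEigenform) {ℓ : ℕ} (hℓ : ℓ.Prime) (hℓN : ¬ ℓ ∣ N) :
    IsIntegral ℤ (qCoeff (⇑g) ℓ) :=
  isIntegral_of_heckeTLin_eq_smul (ne_zero_of_isNormalizedEigenform hg) hℓ hℓN
    (heckeTLin_eq_smul_of_isNormalizedEigenform hg hℓ hℓN)

/-- the period map is injective. -/
theorem periodMap_ne_zero {f : CuspForm (Gamma0 N) 2} (hf : f ≠ 0) : periodMap N f ≠ 0 := by
  intro h0
  apply hf
  refine eq_zero_of_periodPoly_eq_zero 0 f fun γ hγ => ?_
  have := periodPoly_zero_cusp N f ⟨γ, hγ⟩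
  rw [h0, AddMonoidHom.zero_apply, map_zero] at this
  exact this

/-- periods of an eigenform form an eigenvector of `T_ℓ` on `Hom(Γ₀(N), ℂ)`. -/
theorem heckeHom_periodMap_of_isNormalizedEigenform {g : CuspForm (Gamma0 N) 2}
    (hg : g.IsNormalizedEigenform) {ℓ : ℕ} [Fact ℓ.Prime] (hℓ : ℓ.Prime) (hℓN : ¬ ℓ ∣ N) :
    heckeHom hℓN ℂ (periodMap N g) = qCoeff (⇑g) ℓ • periodMap N g := by
  rw [← periodMap_heckeTLin hℓ hℓN, heckeTLin_eq_smul_of_isNormalizedEigenform hg hℓ hℓN,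
    periodMap_smul]

end

end Fermat.Agent.S29.Betti
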