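import Fermat.Agent.S29.Betti.PeriodHecke
import Fermat.Agent.S29.Eigen.EigenReduce

/-!
# S29, block (R3-B): the contract `[B]` of the R3 blueprint

For a normalised eigenform `g` of level `Γ₀(N)` and a ring hom `φ : ℤ̄ → k0` into a field of
characteristic `p`: a nonzero character `c : Γ₀(N) → k0` killing parabolic (`tr² = 4`, so also
`-1`) and finite order elements, with the transfer relations
`∑_x c(γ'_x) = φ(a_ℓ) c(γ)` for every prime `ℓ ∤ N` and every Hecke relation datum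
`heckeRep ℓ x * γ = γ'_x * heckeRep ℓ (redMatrix ℓ γ • x)`.
-/

set_option autoImplicit false

namespace Fermat.Agent.S29.Betti

open UpperHalfPlane CongruenceSubgroup Matrix.SpecialLinearGroup
open ModularCurve ModularCurve.Period Fermat.Agent.S22 Fermat.Agent.S21
open ModularFormClass
open P2MW.S_ModularForm_heckeT_slash_eq_self_of_mem_Gamma0.ModularForm.HeckeSlashInvariance
open scoped MatrixGroups

noncomputable section

/-- Hecke relation data (the `(d4)` convention of the R3 blueprint, lead's note #1431). -/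
def HeckeRel (N ℓ : ℕ) [Fact ℓ.Prime] (γ : Gamma0 N) (γ' : OnePoint (ZMod ℓ) → Gamma0 N) : Prop :=
  ∀ x, heckeRep ℓ x * mapGL ℝ (γ : SL(2, ℤ)) =
    mapGL ℝ ((γ' x : Gamma0 N) : SL(2, ℤ)) * heckeRep ℓ (redMatrix ℓ (γ : SL(2, ℤ)) • x)

variable {N : ℕ} {ℓ : ℕ} [Fact ℓ.Prime]

theorem heckeRel_stepG (hℓN : ¬ ℓ ∣ N) (γ : Gamma0 N) : HeckeRel N ℓ γ (stepG hℓN γ) :=
  fun x => stepSL_rel hℓN γ x

theorem eq_stepG_of_heckeRel (hℓN : ¬ ℓ ∣ N) {γ : Gamma0 N} {γ' : OnePoint (ZMod ℓ) → Gamma0 N}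
    (h : HeckeRel N ℓ γ γ') : γ' = stepG hℓN γ := by
  funext x
  apply Subtype.ext
  rw [stepG_coe]
  exact stepSL_unique hℓN (h x)

/-- relation data exist (Prelude `heckeRep_mul`). -/
theorem exists_heckeRel (hℓN : ¬ ℓ ∣ N) (γ : Gamma0 N) : ∃ γ', HeckeRel N ℓ γ γ' :=
  ⟨_, heckeRel_stepG hℓN γ⟩

/-- `T_ℓ` in terms of arbitrary relation data. -/
theorem heckeHom_apply_of_heckeRel (hℓN : ¬ ℓ ∣ N) {A : Type*} [AddCommGroup A]
    (c : Additive (Gamma0 N) →+ A) {γ : Gamma0 N} {γ' : OnePoint (ZMod ℓ) → Gamma0 N}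
    (h : HeckeRel N ℓ γ γ') :
    heckeHom hℓN A c (Additive.ofMul γ) = ∑ x, c (Additive.ofMul (γ' x)) := by
  rw [eq_stepG_of_heckeRel hℓN h, heckeHom_apply]

/-! ### The contract -/

section Main

variable (N) [NeZero N]

instance instGroupFGGamma0 : Group.FG (Gamma0 N) :=
  (Group.fg_iff_subgroup_fg _).mpr (gamma0_fg N)

/-- the index type of the relations: primes not dividing `N`, and group elements. -/
abbrev RelIdx : Type := {q : Nat.Primes // ¬ (q : ℕ) ∣ N} × Gamma0 N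

instance instFactRelIdx (r : RelIdx N) : Fact (r.1.1 : ℕ).Prime := ⟨r.1.1.2⟩

/-- number of cosets. -/
def relCard (r : RelIdx N) : ℕ := Fintype.card (OnePoint (ZMod (r.1.1 : ℕ)))

/-- the steps, indexed by `Fin`. -/
def relX (r : RelIdx N) (i : Fin (relCard N r)) : Gamma0 N :=
  stepG r.1.2 r.2 ((Fintype.equivFin (OnePoint (ZMod (r.1.1 : ℕ)))).symm i)

theorem sum_relX {A : Type*} [AddCommGroup A] (c : Additive (Gamma0 N) →+ A) (r : RelIdx N) :
    ∑ i, c (Additive.ofMul (relX N r i)) = heckeHom r.1.2 A c (Additive.ofMul r.2) := by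
  rw [heckeHom_apply]
  exact Equiv.sum_comp (Fintype.equivFin (OnePoint (ZMod (r.1.1 : ℕ)))).symm
    (fun x => c (Additive.ofMul (stepG r.1.2 r.2 x)))

/-- complex characters kill elements of finite order. -/
theorem apply_eq_zero_of_isOfFinOrder (v : Additive (Gamma0 N) →+ ℂ) {γ : Gamma0 N}
    (hγ : IsOfFinOrder γ) : v (Additive.ofMul γ) = 0 := by
  obtain ⟨n, hn, h⟩ := hγ.exists_pow_eq_one
  have h1 : v (Additive.ofMul (γ ^ n)) = 0 := by rw [h, ofMul_one, map_zero]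
  rw [ofMul_pow, map_nsmul, nsmul_eq_mul] at h1
  exact (mul_eq_zero.mp h1).resolve_left (Nat.cast_ne_zero.mpr hn.ne')

/-- **Contract `[B]` of (R3).** -/
theorem exists_eigen_char {g : CuspForm (Gamma0 N) 2} (hg : g.IsNormalizedEigenform)
    (p : ℕ) [Fact p.Prime] {k0 : Type*} [Field k0] [CharP k0 p]
    (φ : integralClosure ℤ ℂ →+* k0) :
    ∃ c : Additive (Gamma0 N) →+ k0, c ≠ 0 ∧
      (∀ γ : Gamma0 N, (((γ : SL(2, ℤ)) : Matrix (Fin 2) (Fin 2) ℤ).trace ^ 2 = 4 ∨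
        IsOfFinOrder γ) → c (Additive.ofMul γ) = 0) ∧
      ∀ (ℓ : ℕ) [Fact ℓ.Prime], ¬ ℓ ∣ N →
        ∃ a : integralClosure ℤ ℂ, (a : ℂ) = qCoeff (⇑g) ℓ ∧
          ∀ (γ : Gamma0 N) (γ' : OnePoint (ZMod ℓ) → Gamma0 N), HeckeRel N ℓ γ γ' →
            ∑ x, c (Additive.ofMul (γ' x)) = φ a * c (Additive.ofMul γ) := by
  classical
  set v : Additive (Gamma0 N) →+ ℂ := periodMap N g with hv
  have hv0 : v ≠ 0 := periodMap_ne_zero (ne_zero_of_isNormalizedEigenform hg)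
  let a : RelIdx N → integralClosure ℤ ℂ := fun r =>
    ⟨qCoeff (⇑g) (r.1.1 : ℕ), isIntegral_qCoeff_of_isNormalizedEigenform hg r.1.1.2 r.1.2⟩
  have hev : ∀ r : RelIdx N, ∑ i, v (Additive.ofMul (relX N r i)) =
      ((a r : integralClosure ℤ ℂ) : ℂ) * v (Additive.ofMul r.2) := by
    intro r
    rw [sum_relX, hv, heckeHom_periodMap_of_isNormalizedEigenform hg r.1.1.2 r.1.2]
    rfl
  obtain ⟨c, hc0, hkill, hrel⟩ :=
    Fermat.Agent.S29.Eigen.EigenReduce.exists_eigen_reduction_charP (relCard N) (relX N)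
      (fun r => r.2) a v hv0 hev p φ
  refine ⟨c, hc0, ?_, ?_⟩
  · rintro γ (hγ | hγ)
    · apply hkill
      have := periodMap_mem_parabolicHoms N g
      rw [mem_parabolicHoms_iff] at this
      exact this γ hγ
    · exact hkill γ (apply_eq_zero_of_isOfFinOrder N v hγ)
  · intro ℓ hℓ hℓN
    let r0 : {q : Nat.Primes // ¬ (q : ℕ) ∣ N} := ⟨⟨ℓ, hℓ.out⟩, hℓN⟩
    refine ⟨a (r0, 1), rfl, ?_⟩
    intro γ γ' hγ'
    have h1 := hrel (r0, γ)
    rw [sum_relX] at h1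
    have h2 := heckeHom_apply_of_heckeRel (ℓ := ℓ) hℓN c hγ'
    have h3 : heckeHom (ℓ := ℓ) hℓN k0 c (Additive.ofMul γ) =
        heckeHom (r0, γ).1.2 k0 c (Additive.ofMul (r0, γ).2) := rfl
    rw [← h2, h3, h1]

end Main

end

end Fermat.Agent.S29.Betti
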